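import Fermat.Agent.S15.Moduli.WpBasic

/-! # The addition theorem for the Weierstrass `℘` function

`ptHom L hΔ : ℂ →+ (curve L).toAffine.Point` with kernel the lattice.
-/

set_option autoImplicit false

open PeriodPair Filter Topology Module

namespace Fermat.Agent.S15.Moduli

noncomputable section

variable (L : PeriodPair)

/-- the affine curve `y² = x³ - (g₂/4) x - g₃/4` (`x = ℘`, `y = ℘'/2`) -/
def curve : WeierstrassCurve ℂ := ⟨0, 0, 0, -L.g₂ / 4, -L.g₃ / 4⟩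

/-- the abscissa of the difference of two points -/
def x3 (z w : ℂ) : ℂ :=
  ((℘'[L] (z + w) / 2 + ℘'[L] z / 2) / (℘[L] (z + w) - ℘[L] z)) ^ 2 - ℘[L] (z + w) - ℘[L] z

lemma hasDerivAt_wp_add_right {z w : ℂ} (h : z + w ∉ L.lattice) :
    HasDerivAt (fun z => ℘[L] (z + w)) (℘'[L] (z + w)) z := by
  have := (hasDerivAt_wp L h).comp_add_const z w
  exact this

lemma hasDerivAt_dwp_add_right {z w : ℂ} (h : z + w ∉ L.lattice) :
    HasDerivAt (fun z => ℘'[L] (z + w)) (6 * ℘[L] (z + w) ^ 2 - L.g₂ / 2) z := by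
  have := (hasDerivAt_dwp L h).comp_add_const z w
  exact this

lemma hasDerivAt_wp_add_left {z w : ℂ} (h : z + w ∉ L.lattice) :
    HasDerivAt (fun w => ℘[L] (z + w)) (℘'[L] (z + w)) w := by
  have := (hasDerivAt_wp L h).comp_const_add z w
  exact this

lemma hasDerivAt_dwp_add_left {z w : ℂ} (h : z + w ∉ L.lattice) :
    HasDerivAt (fun w => ℘'[L] (z + w)) (6 * ℘[L] (z + w) ^ 2 - L.g₂ / 2) w := by
  have := (hasDerivAt_dwp L h).comp_const_add z w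
  exact this

lemma hasDerivAt_x3 {z w : ℂ} (hz : z ∉ L.lattice) (hzw : z + w ∉ L.lattice)
    (hne : ℘[L] (z + w) ≠ ℘[L] z) : HasDerivAt (fun z => x3 L z w) 0 z := by
  have hd : ℘[L] (z + w) - ℘[L] z ≠ 0 := sub_ne_zero.mpr hne
  have h1 := ((hasDerivAt_dwp_add_right L hzw).div_const 2).add ((hasDerivAt_dwp L hz).div_const 2)
  have h2 := (hasDerivAt_wp_add_right L hzw).sub (hasDerivAt_wp L hz)
  have h3 := (((h1.div h2 hd).pow 2).sub (hasDerivAt_wp_add_right L hzw)).sub (hasDerivAt_wp L hz)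
  have e1 := L.derivWeierstrassP_sq z hz
  have e2 := L.derivWeierstrassP_sq (z + w) hzw
  have h4 : HasDerivAt (fun z => x3 L z w)
      (2 * ((℘'[L] (z + w) / 2 + ℘'[L] z / 2) / (℘[L] (z + w) - ℘[L] z)) *
      ((((6 * ℘[L] (z + w) ^ 2 - L.g₂ / 2) / 2 + (6 * ℘[L] z ^ 2 - L.g₂ / 2) / 2) *
        (℘[L] (z + w) - ℘[L] z) - (℘'[L] (z + w) / 2 + ℘'[L] z / 2) *
          (℘'[L] (z + w) - ℘'[L] z)) / (℘[L] (z + w) - ℘[L] z) ^ 2) -
      ℘'[L] (z + w) - ℘'[L] z) z := by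
    simpa using! h3
  have key : ((6 * ℘[L] (z + w) ^ 2 - L.g₂ / 2) / 2 + (6 * ℘[L] z ^ 2 - L.g₂ / 2) / 2) *
        (℘[L] (z + w) - ℘[L] z) - (℘'[L] (z + w) / 2 + ℘'[L] z / 2) *
          (℘'[L] (z + w) - ℘'[L] z) = (℘[L] (z + w) - ℘[L] z) ^ 3 := by
    linear_combination e1 / 2 - e2 / 2
  rw [key] at h4
  convert! h4 using 1
  field_simp
  ring

/-- the regularised function at `z = 0` -/
def regX (w z : ℂ) : ℂ :=
  (℘[L] (z + w) * (1 + z ^ 2 * ℘[L - (0 : ℂ)] z) *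
      (z ^ 2 * ℘[L] (z + w) + (1 + z ^ 2 * ℘[L - (0 : ℂ)] z)) -
    (L.g₂ / 4) * z ^ 2 * (z ^ 2 * ℘[L] (z + w) + (1 + z ^ 2 * ℘[L - (0 : ℂ)] z)) -
    (L.g₃ / 2) * z ^ 4 + ℘'[L] (z + w) * z * (-1 + z ^ 3 * ℘'[L - (0 : ℂ)] z / 2)) /
  (z ^ 2 * ℘[L] (z + w) - (1 + z ^ 2 * ℘[L - (0 : ℂ)] z)) ^ 2

lemma regX_zero (w : ℂ) : regX L w 0 = ℘[L] w := by
  simp [regX]

lemma analyticAt_shift {w : ℂ} (hw : w ∉ L.lattice) :
    AnalyticAt ℂ (fun z => ℘[L] (z + w)) 0 := by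
  have h : AnalyticAt ℂ ℘[L] (0 + w) := L.analyticOnNhd_weierstrassP _ (by simpa using hw)
  exact h.comp (f := fun z => z + w) (by fun_prop)

lemma analyticAt_shift' {w : ℂ} (hw : w ∉ L.lattice) :
    AnalyticAt ℂ (fun z => ℘'[L] (z + w)) 0 := by
  have h : AnalyticAt ℂ ℘'[L] (0 + w) := L.analyticOnNhd_derivWeierstrassP _ (by simpa using hw)
  exact h.comp (f := fun z => z + w) (by fun_prop)

lemma analyticAt_regX {w : ℂ} (hw : w ∉ L.lattice) : AnalyticAt ℂ (regX L w) 0 := by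
  have h1 := analyticAt_shift L hw
  have h2 := analyticAt_shift' L hw
  have h3 := L.analyticAt_weierstrassPExcept 0
  have h4 := L.analyticAt_derivWeierstrassPExcept 0
  unfold regX
  refine AnalyticAt.div ?_ ?_ ?_
  · fun_prop
  · fun_prop
  · simp

/-- near `0`, `℘(z+w) ≠ ℘(z)` -/
lemma eventually_ne {w : ℂ} (hw : w ∉ L.lattice) :
    ∀ᶠ z in 𝓝[≠] (0 : ℂ), ℘[L] (z + w) ≠ ℘[L] z := by
  have h1 : ∀ᶠ z in 𝓝[≠] (0 : ℂ), ‖℘[L] w‖ + 1 < ‖℘[L] z‖ := by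
    have := tendsto_wp_cobounded L
    rw [tendsto_norm_atTop_iff_cobounded.symm] at this
    exact this.eventually_gt_atTop _
  have h2 : ∀ᶠ z in 𝓝[≠] (0 : ℂ), ‖℘[L] (z + w)‖ < ‖℘[L] w‖ + 1 := by
    have := (analyticAt_shift L hw).continuousAt.norm.tendsto
    simp only [zero_add] at this
    exact (this.eventually_lt_const (lt_add_one _)).filter_mono nhdsWithin_le_nhds
  filter_upwards [h1, h2] with z h1 h2 h
  rw [h] at h2
  exact absurd (h1.trans h2) (lt_irrefl _)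

lemma eventually_good {w : ℂ} (hw : w ∉ L.lattice) :
    ∀ᶠ z in 𝓝[≠] (0 : ℂ), z ∉ L.lattice ∧ z + w ∉ L.lattice ∧ ℘[L] (z + w) ≠ ℘[L] z ∧ z ≠ 0 := by
  have h2 : ∀ᶠ z in 𝓝[≠] (0 : ℂ), z + w ∉ L.lattice := by
    have h3 : ContinuousAt (fun z : ℂ => z + w) 0 := by fun_prop
    have h4 : ∀ᶠ y in 𝓝 ((fun z : ℂ => z + w) 0), y ∉ L.lattice := by
      simpa using eventually_notMem_of_notMem L hw
    exact (h3.eventually h4).filter_mono nhdsWithin_le_nhds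
  filter_upwards [eventually_notMem_lattice L, h2, eventually_ne L hw, self_mem_nhdsWithin] with
    z h1 h2 h3 h4
  exact ⟨h1, h2, h3, h4⟩

lemma x3_mul {z w : ℂ} (hz : z ∉ L.lattice) (hzw : z + w ∉ L.lattice)
    (hne : ℘[L] (z + w) ≠ ℘[L] z) :
    x3 L z w * (℘[L] (z + w) - ℘[L] z) ^ 2 =
      ℘[L] (z + w) * ℘[L] z * (℘[L] (z + w) + ℘[L] z) - (L.g₂ / 4) * (℘[L] (z + w) + ℘[L] z) -
        L.g₃ / 2 + ℘'[L] (z + w) * ℘'[L] z / 2 := by
  have hd : ℘[L] (z + w) - ℘[L] z ≠ 0 := sub_ne_zero.mpr hne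
  have e1 := L.derivWeierstrassP_sq z hz
  have e2 := L.derivWeierstrassP_sq (z + w) hzw
  have : x3 L z w * (℘[L] (z + w) - ℘[L] z) ^ 2 = (℘'[L] (z + w) / 2 + ℘'[L] z / 2) ^ 2 -
      (℘[L] (z + w) + ℘[L] z) * (℘[L] (z + w) - ℘[L] z) ^ 2 := by
    rw [x3]
    field_simp
    ring
  rw [this]
  linear_combination e1 / 4 + e2 / 4

lemma regX_eq_x3 {z w : ℂ} (hz : z ∉ L.lattice) (hzw : z + w ∉ L.lattice)
    (hne : ℘[L] (z + w) ≠ ℘[L] z) (h0 : z ≠ 0) : regX L w z = x3 L z w := by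
  have hd : ℘[L] (z + w) - ℘[L] z ≠ 0 := sub_ne_zero.mpr hne
  have e1 : 1 + z ^ 2 * ℘[L - (0 : ℂ)] z = z ^ 2 * ℘[L] z := by
    rw [wp_eq_near L h0]
    field_simp
    ring
  have e2 : -1 + z ^ 3 * ℘'[L - (0 : ℂ)] z / 2 = z ^ 3 * ℘'[L] z / 2 := by
    rw [dwp_eq_near L z]
    field_simp
    ring
  rw [regX, e1, e2]
  have e3 : z ^ 2 * ℘[L] (z + w) - z ^ 2 * ℘[L] z = z ^ 2 * (℘[L] (z + w) - ℘[L] z) := by ring
  rw [e3, div_eq_iff (pow_ne_zero 2 (mul_ne_zero (pow_ne_zero 2 h0) hd))]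
  have := x3_mul L hz hzw hne
  linear_combination -(z ^ 2) ^ 2 * this

lemma eventually_eventually_of_ne {p : ℂ → Prop} (h : ∀ᶠ z in 𝓝[≠] (0 : ℂ), p z) :
    ∀ᶠ z in 𝓝[≠] (0 : ℂ), ∀ᶠ y in 𝓝 z, p y := by
  rw [eventually_nhdsWithin_iff] at h ⊢
  filter_upwards [eventually_eventually_nhds.mpr h] with z hz hz0
  filter_upwards [hz, isOpen_ne.mem_nhds hz0] with y hy hy0
  exact hy hy0

/-- `x3` is constant near `0`. -/
lemma eventually_x3 {w : ℂ} (hw : w ∉ L.lattice) :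
    ∀ᶠ z in 𝓝[≠] (0 : ℂ), x3 L z w = ℘[L] w := by
  have hgood := eventually_good L hw
  have han := analyticAt_regX L hw
  -- the derivative of `regX` vanishes near `0`
  have hder : ∀ᶠ z in 𝓝[≠] (0 : ℂ), deriv (regX L w) z = 0 := by
    have h1 : ∀ᶠ z in 𝓝[≠] (0 : ℂ), ∀ᶠ y in 𝓝 z, y ∉ L.lattice ∧ y + w ∉ L.lattice ∧
        ℘[L] (y + w) ≠ ℘[L] y ∧ y ≠ 0 := eventually_eventually_of_ne hgood
    filter_upwards [h1] with z hz
    have hz' := hz.self_of_nhds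
    have h2 := hasDerivAt_x3 L hz'.1 hz'.2.1 hz'.2.2.1
    refine (h2.congr_of_eventuallyEq ?_).deriv
    filter_upwards [hz] with y hy
    exact regX_eq_x3 L hy.1 hy.2.1 hy.2.2.1 hy.2.2.2
  have hder' : ∀ᶠ z in 𝓝 (0 : ℂ), deriv (regX L w) z = 0 :=
    han.deriv.frequently_zero_iff_eventually_zero.mp hder.frequently
  obtain ⟨r, hr, hball⟩ := Metric.eventually_nhds_iff_ball.mp
    (hder'.and han.eventually_analyticAt)
  have hconst : ∀ z ∈ Metric.ball (0 : ℂ) r, regX L w z = ℘[L] w := by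
    intro z hz
    rw [← regX_zero L w]
    refine Metric.isOpen_ball.is_const_of_deriv_eq_zero
      (convex_ball (0 : ℂ) r).isPreconnected (fun y hy => ?_) (fun y hy => (hball y hy).1) hz
      (Metric.mem_ball_self hr)
    exact (hball y hy).2.differentiableAt.differentiableWithinAt
  filter_upwards [hgood, mem_nhdsWithin_of_mem_nhds (Metric.ball_mem_nhds (0 : ℂ) hr)] with z hz hz'
  rw [← regX_eq_x3 L hz.1 hz.2.1 hz.2.2.1 hz.2.2.2]
  exact hconst z hz'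

/-- the polynomial form of the addition theorem -/
lemma wp_add_poly {w : ℂ} (hw : w ∉ L.lattice) {z : ℂ} (hz : z ∉ L.lattice)
    (hzw : z + w ∉ L.lattice) :
    ℘[L] w * (℘[L] (z + w) - ℘[L] z) ^ 2 =
      ℘[L] (z + w) * ℘[L] z * (℘[L] (z + w) + ℘[L] z) - (L.g₂ / 4) * (℘[L] (z + w) + ℘[L] z) -
        L.g₃ / 2 + ℘'[L] (z + w) * ℘'[L] z / 2 := by
  set f : ℂ → ℂ := fun z => ℘[L] w * (℘[L] (z + w) - ℘[L] z) ^ 2 -
      (℘[L] (z + w) * ℘[L] z * (℘[L] (z + w) + ℘[L] z) - (L.g₂ / 4) * (℘[L] (z + w) + ℘[L] z) -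
        L.g₃ / 2 + ℘'[L] (z + w) * ℘'[L] z / 2) with hf
  have han : AnalyticOnNhd ℂ f (goodSet L w) := by
    intro y hy
    have h1 : AnalyticAt ℂ ℘[L] y := L.analyticOnNhd_weierstrassP _ hy.1
    have h2 : AnalyticAt ℂ ℘'[L] y := L.analyticOnNhd_derivWeierstrassP _ hy.1
    have h3 : AnalyticAt ℂ (fun z => ℘[L] (z + w)) y :=
      (L.analyticOnNhd_weierstrassP _ hy.2).comp (f := fun z => z + w) (by fun_prop)
    have h4 : AnalyticAt ℂ (fun z => ℘'[L] (z + w)) y :=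
      (L.analyticOnNhd_derivWeierstrassP _ hy.2).comp (f := fun z => z + w) (by fun_prop)
    rw [hf]
    fun_prop
  have h0 : ∀ᶠ z in 𝓝[≠] (0 : ℂ), f z = 0 := by
    filter_upwards [eventually_good L hw, eventually_x3 L hw] with y hy hy'
    have := x3_mul L hy.1 hy.2.1 hy.2.2.1
    rw [hf]
    simp only
    rw [← this, hy', sub_self]
  have h1 : ∀ᶠ z in 𝓝[≠] (0 : ℂ), (∀ᶠ y in 𝓝 z, f y = 0) ∧ z ∈ goodSet L w := by
    refine (eventually_eventually_of_ne h0).and ?_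
    filter_upwards [eventually_good L hw] with y hy
    exact ⟨hy.1, hy.2.1⟩
  obtain ⟨z₀, hz₀, hz₀'⟩ := h1.exists
  have h2 := han.eqOn_zero_of_preconnected_of_eventuallyEq_zero (isPreconnected_goodSet L w)
    hz₀' hz₀ (show z ∈ goodSet L w from ⟨hz, hzw⟩)
  exact sub_eq_zero.mp h2

/-- the addition theorem, abscissa -/
lemma x3_eq {w : ℂ} (hw : w ∉ L.lattice) {z : ℂ} (hz : z ∉ L.lattice)
    (hzw : z + w ∉ L.lattice) (hne : ℘[L] (z + w) ≠ ℘[L] z) : x3 L z w = ℘[L] w := by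
  have hd : ℘[L] (z + w) - ℘[L] z ≠ 0 := sub_ne_zero.mpr hne
  have h1 := x3_mul L hz hzw hne
  rw [← wp_add_poly L hw hz hzw] at h1
  exact mul_right_cancel₀ (pow_ne_zero 2 hd) h1

/-- the addition theorem, ordinate -/
lemma y3_eq {w : ℂ} (hw : w ∉ L.lattice) {z : ℂ} (hz : z ∉ L.lattice)
    (hzw : z + w ∉ L.lattice) (hne : ℘[L] (z + w) ≠ ℘[L] z) :
    -((℘'[L] (z + w) / 2 + ℘'[L] z / 2) / (℘[L] (z + w) - ℘[L] z) * (℘[L] w - ℘[L] (z + w)) +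
      ℘'[L] (z + w) / 2) = ℘'[L] w / 2 := by
  have hd : ℘[L] (z + w) - ℘[L] z ≠ 0 := sub_ne_zero.mpr hne
  have e1 := L.derivWeierstrassP_sq z hz
  have e2 := L.derivWeierstrassP_sq (z + w) hzw
  have h1 := (hasDerivAt_dwp_add_left L hzw).div_const 2 |>.add_const (℘'[L] z / 2)
  have h2 := (hasDerivAt_wp_add_left L hzw).sub_const (℘[L] z)
  have h3 := (((h1.div h2 hd).pow 2).sub (hasDerivAt_wp_add_left L hzw)).sub_const (℘[L] z)
  have h4 : HasDerivAt (fun w => x3 L z w)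
      (2 * ((℘'[L] (z + w) / 2 + ℘'[L] z / 2) / (℘[L] (z + w) - ℘[L] z)) *
      (((6 * ℘[L] (z + w) ^ 2 - L.g₂ / 2) / 2  *
        (℘[L] (z + w) - ℘[L] z) - (℘'[L] (z + w) / 2 + ℘'[L] z / 2) *
          ℘'[L] (z + w)) / (℘[L] (z + w) - ℘[L] z) ^ 2) -
      ℘'[L] (z + w)) w := by
    unfold x3
    simpa using! h3
  have h5 : (fun w => x3 L z w) =ᶠ[𝓝 w] ℘[L] := by
    have c1 : ∀ᶠ y in 𝓝 w, y ∉ L.lattice := eventually_notMem_of_notMem L hw
    have c2 : ContinuousAt (fun y : ℂ => z + y) w := by fun_prop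
    have c3 : ∀ᶠ y in 𝓝 w, z + y ∉ L.lattice :=
      c2.eventually (eventually_notMem_of_notMem L hzw)
    have c4 : ContinuousAt (fun y => ℘[L] (z + y)) w := (hasDerivAt_wp_add_left L hzw).continuousAt
    have c5 : ∀ᶠ y in 𝓝 w, ℘[L] (z + y) ≠ ℘[L] z := c4.eventually_ne hne
    filter_upwards [c1, c3, c5] with y h1 h2 h3
    exact x3_eq L h1 hz h2 h3
  have h6 := h4.unique ((hasDerivAt_wp L hw).congr_of_eventuallyEq h5)
  have h7 := x3_eq L hw hz hzw hne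
  rw [← h6, ← h7, x3]
  set d := ℘[L] (z + w) - ℘[L] z with hd'
  set S := ℘'[L] (z + w) / 2 + ℘'[L] z / 2 with hS
  have key : -(S ^ 2) + (2 * ℘[L] (z + w) + ℘[L] z) * d ^ 2 =
      (6 * ℘[L] (z + w) ^ 2 - L.g₂ / 2) / 2 * d - S * ℘'[L] (z + w) := by
    rw [hS, hd']
    linear_combination (e2 - e1) / 4
  rw [← key]
  field_simp
  ring

end

end Fermat.Agent.S15.Moduli
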