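import Mathlib

/-! # Weierstrass `℘`: second derivative, behaviour at `0`, connectedness -/

set_option autoImplicit false

open PeriodPair Filter Topology Module

namespace Fermat.Agent.S15.Moduli

noncomputable section

variable (L : PeriodPair)

lemma countable_lattice : (L.lattice : Set ℂ).Countable := by
  have : Countable L.lattice := L.latticeEquivProd.toEquiv.countable_iff.mpr inferInstance
  exact Set.to_countable _

lemma isPreconnected_compl_of_countable {s : Set ℂ} (hs : s.Countable) : IsPreconnected sᶜ := by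
  refine (Set.Countable.isConnected_compl_of_one_lt_rank ?_ hs).isPreconnected
  rw [Complex.rank_real_complex]
  exact Nat.one_lt_ofNat

lemma isPreconnected_compl_lattice : IsPreconnected ((L.lattice : Set ℂ)ᶜ) :=
  isPreconnected_compl_of_countable (countable_lattice L)

/-- the set of `z` such that neither `z` nor `z + w` is in the lattice -/
def goodSet (w : ℂ) : Set ℂ := {z | z ∉ L.lattice ∧ z + w ∉ L.lattice}

lemma goodSet_eq (w : ℂ) :
    goodSet L w = ((L.lattice : Set ℂ) ∪ (fun z => z + w) ⁻¹' (L.lattice : Set ℂ))ᶜ := by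
  ext z
  simp [goodSet]

lemma isPreconnected_goodSet (w : ℂ) : IsPreconnected (goodSet L w) := by
  rw [goodSet_eq]
  refine isPreconnected_compl_of_countable ((countable_lattice L).union ?_)
  exact (countable_lattice L).preimage (add_left_injective w)

lemma isOpen_goodSet (w : ℂ) : IsOpen (goodSet L w) := by
  rw [goodSet_eq, Set.compl_union]
  refine L.isClosed_lattice.isOpen_compl.inter ?_
  exact (L.isClosed_lattice.preimage (continuous_add_const w)).isOpen_compl

lemma hasDerivAt_wp {z : ℂ} (hz : z ∉ L.lattice) : HasDerivAt ℘[L] (℘'[L] z) z := by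
  have h := (L.analyticOnNhd_weierstrassP z hz).differentiableAt.hasDerivAt
  rwa [deriv_weierstrassP] at h

lemma wp_eq_near {z : ℂ} (hz : z ≠ 0) :
    ℘[L] z = ℘[L - (0 : ℂ)] z + 1 / z ^ 2 := by
  have h := L.weierstrassPExcept_add 0 z
  simp only [ZeroMemClass.coe_zero, sub_zero] at h
  rw [← h]
  simp

lemma dwp_eq_near (z : ℂ) :
    ℘'[L] z = ℘'[L - (0 : ℂ)] z - 2 / z ^ 3 := by
  have h := L.derivWeierstrassPExcept_sub 0 z
  simp only [ZeroMemClass.coe_zero, sub_zero] at h
  rw [← h]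

lemma eventually_notMem_lattice : ∀ᶠ z in 𝓝[≠] (0 : ℂ), z ∉ L.lattice := by
  have h := L.compl_lattice_sdiff_singleton_mem_nhds 0
  filter_upwards [mem_nhdsWithin_of_mem_nhds h, self_mem_nhdsWithin] with z hz hz0 hzL
  exact hz ⟨hzL, hz0⟩

lemma eventually_notMem_of_notMem {w : ℂ} (hw : w ∉ L.lattice) : ∀ᶠ z in 𝓝 w, z ∉ L.lattice :=
  L.isClosed_lattice.isOpen_compl.mem_nhds hw

/-- `℘(z) → ∞` as `z → 0`. -/
lemma tendsto_wp_cobounded : Tendsto ℘[L] (𝓝[≠] (0 : ℂ)) (Bornology.cobounded ℂ) := by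
  have h1 : Tendsto (fun z : ℂ => 1 + z ^ 2 * ℘[L - (0 : ℂ)] z) (𝓝[≠] (0 : ℂ)) (𝓝 1) := by
    have : ContinuousAt (fun z : ℂ => 1 + z ^ 2 * ℘[L - (0 : ℂ)] z) 0 :=
      continuousAt_const.add ((continuousAt_id.pow 2).mul
        (L.analyticAt_weierstrassPExcept 0).continuousAt)
    have h := this.tendsto
    simp only [ne_eq, OfNat.ofNat_ne_zero, not_false_eq_true, zero_pow, zero_mul, add_zero] at h
    exact h.mono_left nhdsWithin_le_nhds
  have h2 : Tendsto (fun z : ℂ => (z ^ 2)⁻¹) (𝓝[≠] (0 : ℂ)) (Bornology.cobounded ℂ) := by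
    refine tendsto_inv₀_nhdsNE_zero.comp ?_
    refine tendsto_nhdsWithin_iff.mpr ⟨?_, ?_⟩
    · have : ContinuousAt (fun z : ℂ => z ^ 2) 0 := continuousAt_id.pow 2
      have h := this.tendsto
      simp only [ne_eq, OfNat.ofNat_ne_zero, not_false_eq_true, zero_pow] at h
      exact h.mono_left nhdsWithin_le_nhds
    · filter_upwards [self_mem_nhdsWithin] with z hz
      exact pow_ne_zero 2 hz
  rw [tendsto_norm_atTop_iff_cobounded.symm] at h2 ⊢
  have h3 := h1.norm
  rw [norm_one] at h3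
  have h4 := Tendsto.pos_mul_atTop zero_lt_one h3 h2
  refine h4.congr' ?_
  filter_upwards [self_mem_nhdsWithin] with z hz
  have hz' : z ≠ 0 := hz
  rw [← norm_mul, wp_eq_near L hz']
  congr 1
  field_simp
  ring

lemma not_eventually_const_zero (a : ℂ) : ¬ ∀ᶠ z in 𝓝[≠] (0 : ℂ), ℘[L] z = a := by
  intro h
  have h1 := tendsto_wp_cobounded L
  rw [tendsto_norm_atTop_iff_cobounded.symm] at h1
  have h2 : Tendsto (fun z => ‖℘[L] z‖) (𝓝[≠] (0 : ℂ)) (𝓝 ‖a‖) := by
    refine tendsto_const_nhds.congr' ?_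
    filter_upwards [h] with z hz
    rw [hz]
  exact not_tendsto_nhds_of_tendsto_atTop h1 _ h2

/-- `℘` is not locally constant at any point. -/
lemma eventually_wp_ne {w : ℂ} (hw : w ∉ L.lattice) (a : ℂ) : ∀ᶠ z in 𝓝[≠] w, ℘[L] z ≠ a := by
  rcases ((L.analyticOnNhd_weierstrassP w hw).sub analyticAt_const :
    AnalyticAt ℂ (fun z => ℘[L] z - a) w).eventually_eq_zero_or_eventually_ne_zero with h | h
  · exfalso
    have h1 : AnalyticOnNhd ℂ (fun z => ℘[L] z - a) L.latticeᶜ :=
      L.analyticOnNhd_weierstrassP.sub analyticOnNhd_const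
    have h2 := h1.eqOn_zero_of_preconnected_of_eventuallyEq_zero (isPreconnected_compl_lattice L)
      hw h
    refine not_eventually_const_zero L a ?_
    filter_upwards [eventually_notMem_lattice L] with z hz
    exact sub_eq_zero.mp (h2 hz)
  · filter_upwards [h] with z hz h0
    exact hz (sub_eq_zero.mpr h0)

/-- `℘'' = 6 ℘² - g₂ / 2`. -/
lemma deriv_dwp {z : ℂ} (hz : z ∉ L.lattice) :
    deriv ℘'[L] z = 6 * ℘[L] z ^ 2 - L.g₂ / 2 := by
  have han := L.analyticOnNhd_weierstrassP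
  have han' := L.analyticOnNhd_derivWeierstrassP
  have hopen := L.isClosed_lattice.isOpen_compl
  have h1 : AnalyticOnNhd ℂ (fun z => deriv ℘'[L] z - (6 * ℘[L] z ^ 2 - L.g₂ / 2))
      L.latticeᶜ :=
    han'.deriv.sub ((analyticOnNhd_const.mul (han.pow 2)).sub analyticOnNhd_const)
  have key : ∀ z ∈ (L.lattice : Set ℂ)ᶜ,
      ℘'[L] z * (deriv ℘'[L] z - (6 * ℘[L] z ^ 2 - L.g₂ / 2)) = 0 := by
    intro z hz
    have e1 : HasDerivAt (fun z => ℘'[L] z ^ 2) (2 * ℘'[L] z * deriv ℘'[L] z) z := by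
      have := ((han' z hz).differentiableAt.hasDerivAt).pow 2
      simpa using! this
    have e2 : HasDerivAt (fun z => 4 * ℘[L] z ^ 3 - L.g₂ * ℘[L] z - L.g₃)
        (4 * (3 * ℘[L] z ^ 2 * ℘'[L] z) - L.g₂ * ℘'[L] z) z := by
      have h0 := hasDerivAt_wp L hz
      have := ((h0.pow 3).const_mul 4).sub (h0.const_mul L.g₂)
      have := this.sub_const L.g₃
      simpa using! this
    have e3 : (fun z => ℘'[L] z ^ 2) =ᶠ[𝓝 z] fun z => 4 * ℘[L] z ^ 3 - L.g₂ * ℘[L] z - L.g₃ := by
      filter_upwards [hopen.mem_nhds hz] with y hy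
      exact L.derivWeierstrassP_sq y hy
    have e4 := e1.unique (e2.congr_of_eventuallyEq e3)
    linear_combination e4 / 2
  rcases AnalyticOnNhd.eq_zero_or_eq_zero_of_mul_eq_zero han' h1 key
    (isPreconnected_compl_lattice L) with h | h
  · exfalso
    -- `℘' = 0` everywhere
    have h2 := eventually_wp_ne L hz (℘[L] z)
    have hconst : ∀ᶠ y in 𝓝 z, ℘[L] y = ℘[L] z := by
      have h3 : DifferentiableOn ℂ ℘[L] L.latticeᶜ := L.differentiableOn_weierstrassP
      have h4 : (L.lattice : Set ℂ)ᶜ.EqOn (deriv ℘[L]) 0 := by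
        intro y hy
        rw [deriv_weierstrassP]
        exact h y hy
      filter_upwards [hopen.mem_nhds hz] with y hy
      exact hopen.is_const_of_deriv_eq_zero (isPreconnected_compl_lattice L) h3 h4 hy hz
    have h5 := (h2.and (hconst.filter_mono nhdsWithin_le_nhds)).exists
    obtain ⟨y, hy1, hy2⟩ := h5
    exact hy1 hy2
  · exact sub_eq_zero.mp (h z hz)

lemma hasDerivAt_dwp {z : ℂ} (hz : z ∉ L.lattice) :
    HasDerivAt ℘'[L] (6 * ℘[L] z ^ 2 - L.g₂ / 2) z := by
  have h := (L.analyticOnNhd_derivWeierstrassP z hz).differentiableAt.hasDerivAt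
  rwa [deriv_dwp L hz] at h

end

end Fermat.Agent.S15.Moduli
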