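import Fermat.Agent.S15.Moduli.WpAdd

/-! # The homomorphism `ℂ → E(ℂ)` given by `(℘, ℘'/2)` -/

set_option autoImplicit false

open PeriodPair Filter Topology Module WeierstrassCurve

namespace Fermat.Agent.S15.Moduli

noncomputable section

variable (L : PeriodPair)

lemma curve_equation {z : ℂ} (hz : z ∉ L.lattice) :
    (curve L).toAffine.Equation (℘[L] z) (℘'[L] z / 2) := by
  rw [WeierstrassCurve.Affine.equation_iff]
  simp only [curve]
  linear_combination (L.derivWeierstrassP_sq z hz) / 4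

variable {L} in
lemma curve_nonsingular (hΔ : (curve L).Δ ≠ 0) {z : ℂ} (hz : z ∉ L.lattice) :
    (curve L).toAffine.Nonsingular (℘[L] z) (℘'[L] z / 2) :=
  (WeierstrassCurve.Affine.equation_iff_nonsingular_of_Δ_ne_zero hΔ).mp (curve_equation L hz)

open Classical in
/-- the point of the curve with parameter `z` -/
def pt (hΔ : (curve L).Δ ≠ 0) (z : ℂ) : (curve L).toAffine.Point :=
  if h : z ∈ L.lattice then 0 else .some _ _ (curve_nonsingular hΔ h)

variable {L} (hΔ : (curve L).Δ ≠ 0)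

lemma pt_of_mem {z : ℂ} (h : z ∈ L.lattice) : pt L hΔ z = 0 := dif_pos h

lemma pt_of_notMem {z : ℂ} (h : z ∉ L.lattice) :
    pt L hΔ z = .some _ _ (curve_nonsingular hΔ h) := dif_neg h

lemma pt_eq_zero_iff {z : ℂ} : pt L hΔ z = 0 ↔ z ∈ L.lattice := by
  by_cases h : z ∈ L.lattice
  · simp [pt_of_mem hΔ h, h]
  · rw [pt_of_notMem hΔ h]
    simp [h, WeierstrassCurve.Affine.Point.some_ne_zero]

lemma pt_add_mem (z : ℂ) {l : ℂ} (hl : l ∈ L.lattice) : pt L hΔ (z + l) = pt L hΔ z := by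
  by_cases h : z ∈ L.lattice
  · rw [pt_of_mem hΔ h, pt_of_mem hΔ (L.lattice.add_mem h hl)]
  · have h' : z + l ∉ L.lattice := fun h' => h (by
      have := L.lattice.sub_mem h' hl
      rwa [add_sub_cancel_right] at this)
    rw [pt_of_notMem hΔ h, pt_of_notMem hΔ h']
    have e1 := L.weierstrassP_add_coe z ⟨l, hl⟩
    have e2 := L.derivWeierstrassP_add_coe z ⟨l, hl⟩
    simp only at e1 e2
    simp only [e1, e2]

lemma pt_neg (z : ℂ) : pt L hΔ (-z) = - pt L hΔ z := by
  by_cases h : z ∈ L.lattice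
  · rw [pt_of_mem hΔ h, pt_of_mem hΔ (L.lattice.neg_mem h), neg_zero]
  · have h' : -z ∉ L.lattice := fun h' => h (by
      have := L.lattice.neg_mem h'
      rwa [neg_neg] at this)
    rw [pt_of_notMem hΔ h, pt_of_notMem hΔ h', WeierstrassCurve.Affine.Point.neg_some]
    simp only [L.weierstrassP_neg, L.derivWeierstrassP_neg, WeierstrassCurve.Affine.negY, curve]
    congr 1
    ring

/-- generic case -/
lemma pt_add_of_ne {z w : ℂ} (hz : z ∉ L.lattice) (hw : w ∉ L.lattice) (hzw : z + w ∉ L.lattice)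
    (hne : ℘[L] (z + w) ≠ ℘[L] z) : pt L hΔ (z + w) = pt L hΔ z + pt L hΔ w := by
  rw [← sub_eq_iff_eq_add', sub_eq_add_neg, pt_of_notMem hΔ hz, pt_of_notMem hΔ hw,
    pt_of_notMem hΔ hzw, WeierstrassCurve.Affine.Point.neg_some,
    WeierstrassCurve.Affine.Point.add_of_X_ne hne]
  have hsl : (curve L).toAffine.slope (℘[L] (z + w)) (℘[L] z) (℘'[L] (z + w) / 2)
      ((curve L).toAffine.negY (℘[L] z) (℘'[L] z / 2)) =
      (℘'[L] (z + w) / 2 + ℘'[L] z / 2) / (℘[L] (z + w) - ℘[L] z) := by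
    rw [WeierstrassCurve.Affine.slope_of_X_ne hne]
    simp only [WeierstrassCurve.Affine.negY, curve]
    ring
  have hx := x3_eq L hw hz hzw hne
  have hy := y3_eq L hw hz hzw hne
  have ex : (curve L).toAffine.addX (℘[L] (z + w)) (℘[L] z)
      ((℘'[L] (z + w) / 2 + ℘'[L] z / 2) / (℘[L] (z + w) - ℘[L] z)) = ℘[L] w := by
    rw [← hx, x3]
    simp only [WeierstrassCurve.Affine.addX, curve]
    ring
  have ey : (curve L).toAffine.addY (℘[L] (z + w)) (℘[L] z) (℘'[L] (z + w) / 2)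
      ((℘'[L] (z + w) / 2 + ℘'[L] z / 2) / (℘[L] (z + w) - ℘[L] z)) = ℘'[L] w / 2 := by
    rw [← hy, WeierstrassCurve.Affine.addY, WeierstrassCurve.Affine.negAddY, ex]
    simp only [WeierstrassCurve.Affine.negY, curve]
    ring
  simp only [hsl, ex, ey]

lemma pt_add_of_ne' {z w : ℂ} (hz : z ∉ L.lattice) (hw : w ∉ L.lattice) (hzw : z + w ∉ L.lattice)
    (hne : ℘[L] (z + w) ≠ ℘[L] w) : pt L hΔ (z + w) = pt L hΔ z + pt L hΔ w := by
  rw [add_comm z w, add_comm (pt L hΔ z)]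
  rw [add_comm z w] at hzw hne
  exact pt_add_of_ne hΔ hw hz hzw hne

/-- **The addition theorem.** -/
theorem pt_add (z w : ℂ) : pt L hΔ (z + w) = pt L hΔ z + pt L hΔ w := by
  by_cases hw : w ∈ L.lattice
  · rw [pt_add_mem hΔ z hw, pt_of_mem hΔ hw, add_zero]
  by_cases hz : z ∈ L.lattice
  · rw [add_comm, pt_add_mem hΔ w hz, pt_of_mem hΔ hz, zero_add]
  by_cases hzw : z + w ∈ L.lattice
  · rw [pt_of_mem hΔ hzw]
    have e : w = -z + (z + w) := by ring
    have : pt L hΔ w = - pt L hΔ z := by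
      rw [e, pt_add_mem hΔ (-z) hzw, pt_neg]
    rw [this, add_neg_cancel]
  -- choose a generic `u` close to `0`
  have h1 : ∀ᶠ u in 𝓝[≠] (0 : ℂ), u ∉ L.lattice := eventually_notMem_lattice L
  have h2 : ∀ᶠ u in 𝓝[≠] (0 : ℂ), z + w - u ∉ L.lattice := by
    have h3 : ContinuousAt (fun u : ℂ => z + w - u) 0 := by fun_prop
    have h4 : ∀ᶠ y in 𝓝 ((fun u : ℂ => z + w - u) 0), y ∉ L.lattice := by
      simpa using eventually_notMem_of_notMem L hzw
    exact (h3.eventually h4).filter_mono nhdsWithin_le_nhds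
  have h3 : ∀ᶠ u in 𝓝[≠] (0 : ℂ), w - u ∉ L.lattice := by
    have h3 : ContinuousAt (fun u : ℂ => w - u) 0 := by fun_prop
    have h4 : ∀ᶠ y in 𝓝 ((fun u : ℂ => w - u) 0), y ∉ L.lattice := by
      simpa using eventually_notMem_of_notMem L hw
    exact (h3.eventually h4).filter_mono nhdsWithin_le_nhds
  have h4 : ∀ᶠ u in 𝓝[≠] (0 : ℂ), ‖℘[L] (z + w)‖ + ‖℘[L] w‖ < ‖℘[L] u‖ := by
    have := tendsto_wp_cobounded L
    rw [tendsto_norm_atTop_iff_cobounded.symm] at this
    exact this.eventually_gt_atTop _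
  have h5 : ∀ᶠ u in 𝓝[≠] (0 : ℂ), ℘[L] (z + w - u) ≠ ℘[L] z := by
    have c1 := eventually_wp_ne L hzw (℘[L] z)
    have c2 : Tendsto (fun u : ℂ => z + w - u) (𝓝[≠] 0) (𝓝[≠] (z + w)) := by
      refine tendsto_nhdsWithin_iff.mpr ⟨?_, ?_⟩
      · have : ContinuousAt (fun u : ℂ => z + w - u) 0 := by fun_prop
        have := this.tendsto
        rw [sub_zero] at this
        exact this.mono_left nhdsWithin_le_nhds
      · filter_upwards [self_mem_nhdsWithin] with u hu h
        apply hu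
        have : z + w - u = z + w := h
        simpa using this
    exact c2.eventually c1
  obtain ⟨u, hu1, hu2, hu3, hu4, hu5⟩ := (h1.and (h2.and (h3.and (h4.and h5)))).exists
  have n1 : ℘[L] (z + w) ≠ ℘[L] u := by
    intro h
    rw [h] at hu4
    linarith [norm_nonneg (℘[L] w)]
  have n2 : ℘[L] w ≠ ℘[L] u := by
    intro h
    rw [h] at hu4
    linarith [norm_nonneg (℘[L] (z + w))]
  have e1 : pt L hΔ (z + w) = pt L hΔ (z + w - u) + pt L hΔ u := by
    have := pt_add_of_ne' hΔ hu2 hu1 (by rwa [sub_add_cancel]) (by rwa [sub_add_cancel])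
    rwa [sub_add_cancel] at this
  have e2 : pt L hΔ (z + w - u) = pt L hΔ z + pt L hΔ (w - u) := by
    have := pt_add_of_ne hΔ hz hu3 (by rwa [← add_sub_assoc]) (by rwa [← add_sub_assoc])
    rwa [← add_sub_assoc] at this
  have e3 : pt L hΔ w = pt L hΔ (w - u) + pt L hΔ u := by
    have := pt_add_of_ne' hΔ hu3 hu1 (by rwa [sub_add_cancel]) (by rwa [sub_add_cancel])
    rwa [sub_add_cancel] at this
  rw [e1, e2, e3, add_assoc]

/-- The Weierstrass parametrisation as a homomorphism; its kernel is the lattice. -/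
def ptHom : ℂ →+ (curve L).toAffine.Point where
  toFun := pt L hΔ
  map_zero' := pt_of_mem hΔ L.lattice.zero_mem
  map_add' := pt_add hΔ

lemma ptHom_apply (z : ℂ) : ptHom hΔ z = pt L hΔ z := rfl

lemma ptHom_eq_iff {z w : ℂ} : ptHom hΔ z = ptHom hΔ w ↔ z - w ∈ L.lattice := by
  rw [← sub_eq_zero, ← map_sub, ptHom_apply, pt_eq_zero_iff]

end

end Fermat.Agent.S15.Moduli
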